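import Mathlib.Analysis.Complex.HasPrimitives
import Mathlib.Analysis.Complex.RemovableSingularity
import Mathlib.Analysis.Calculus.MeanValue
import Mathlib.Analysis.Complex.UpperHalfPlane.Manifold
import Mathlib.NumberTheory.ModularForms.Basic
import Mathlib.NumberTheory.ModularForms.QExpansion
import Mathlib.NumberTheory.ModularForms.CongruenceSubgroups
import Fermat.Prelude.Def_ModularCurve_PeriodHomPair

/-!
# Primitives of weight two cusp forms

Primitives of weight two cusp forms on `Γ₀(N)` with expansions at all cusps, and the linearity of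
the period map.
-/

set_option autoImplicit false

noncomputable section

namespace Fermat.Agent.Periods

open UpperHalfPlane CongruenceSubgroup Filter Topology Metric Function
open Matrix.SpecialLinearGroup ModularCurve ModularCurve.Period
open scoped MatrixGroups ModularForm Manifold Real

/-- `F` is a primitive of `f` on the upper half plane. -/
def IsPrimitive (f F : ℍ → ℂ) : Prop :=
  ∀ τ : ℍ, HasDerivAt (F ∘ ofComplex) (f τ) ↑τ

/-- `F` has, at every cusp, an expansion holomorphic in the variable `qParam N` on the open disc. -/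
def HasCuspExpansion (N : ℕ) (F : ℍ → ℂ) : Prop :=
  ∀ δ : SL(2, ℤ), ∃ Φ : ℂ → ℂ, DifferentiableOn ℂ Φ (ball 0 1) ∧
    ∀ w : ℍ, F (δ • w) = Φ (Periodic.qParam N w)

variable {f g F G : ℍ → ℂ}

/-- Primitives add. -/
theorem IsPrimitive.add (hF : IsPrimitive f F) (hG : IsPrimitive g G) :
    IsPrimitive (f + g) (F + G) := fun τ => (hF τ).add (hG τ)

/-- Scaling preserves primitives. -/
theorem IsPrimitive.const_smul (hF : IsPrimitive f F) (c : ℂ) :
    IsPrimitive (c • f) (c • F) := fun τ => (hF τ).const_smul c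

/-- Primitives subtract. -/
theorem IsPrimitive.sub (hF : IsPrimitive f F) (hG : IsPrimitive g G) :
    IsPrimitive (f - g) (F - G) := fun τ => (hF τ).sub (hG τ)

theorem IsPrimitive.sub_const (hF : IsPrimitive f F) (c : ℂ) :
    IsPrimitive f (fun τ => F τ - c) := fun τ => (hF τ).sub_const c

/-- A primitive of the zero function is constant. -/
theorem IsPrimitive.eq_const (hF : IsPrimitive 0 F) (τ τ' : ℍ) : F τ = F τ' := by
  have hd : DifferentiableOn ℂ (F ∘ ofComplex) {z : ℂ | 0 < z.im} := fun z hz =>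
    (hF ⟨z, hz⟩).differentiableAt.differentiableWithinAt
  have hd' : Set.EqOn (deriv (F ∘ ofComplex)) 0 {z : ℂ | 0 < z.im} := fun z hz =>
    (hF ⟨z, hz⟩).deriv
  obtain ⟨a, ha⟩ := isOpen_upperHalfPlaneSet.exists_is_const_of_deriv_eq_zero
    (convex_halfSpace_im_gt 0).isPreconnected hd hd'
  have h1 := ha _ τ.im_pos
  have h2 := ha _ τ'.im_pos
  simp only [comp_apply, ofComplex_apply] at h1 h2
  rw [h1, h2]

/-- Two primitives of the same function differ by a constant. -/
theorem IsPrimitive.sub_eq (hF : IsPrimitive f F) (hG : IsPrimitive f G) (τ τ' : ℍ) :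
    F τ - G τ = F τ' - G τ' := by
  have h : IsPrimitive 0 (F - G) := by simpa using hF.sub hG
  exact h.eq_const τ τ'

/-- Chain rule: precomposing a primitive with a Möbius transformation of positive determinant
is a primitive of the weight two slash. -/
theorem IsPrimitive.comp_smul (hF : IsPrimitive f F) {g : GL (Fin 2) ℝ} (hg : 0 < g.det.val) :
    IsPrimitive (f ∣[(2 : ℤ)] g) (fun τ => F (g • τ)) := by
  intro τ
  have hg' : 0 < g.val.det := hg
  have h1 := (hasStrictDerivAt_smul hg' τ).hasDerivAt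
  have h2 : HasDerivAt (F ∘ ofComplex) (f (g • τ)) ((g • ofComplex (τ : ℂ) : ℍ) : ℂ) := by
    rw [ofComplex_apply]; exact hF (g • τ)
  have h3 := h2.comp (τ : ℂ) h1
  have hfun : ((fun τ : ℍ => F (g • τ)) ∘ ofComplex)
      = (F ∘ ofComplex) ∘ (fun z => ((g • ofComplex z : ℍ) : ℂ)) := by
    funext z; simp [ofComplex_apply]
  rw [hfun]
  refine h3.congr_deriv ?_
  rw [ModularForm.slash_apply, σ, if_pos hg]
  have hd : g.det.val = g.val.det := rfl
  rw [hd, abs_of_pos hg']
  simp [zpow_neg, div_eq_mul_inv, sq, mul_assoc]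

/-- If `F` is a primitive of `f` then `F ∘ δ` is a primitive of `f ∣[2] δ`. -/
theorem IsPrimitive.comp_SL (hF : IsPrimitive f F) (δ : SL(2, ℤ)) :
    IsPrimitive (f ∣[(2 : ℤ)] δ) (fun τ => F (δ • τ)) := by
  have h := hF.comp_smul (g := mapGL ℝ δ) (by simp)
  exact h

/-- A periodic holomorphic function vanishing at `i∞` has a primitive which is a holomorphic
function of `qParam`. -/
theorem exists_qPrimitive {g : ℍ → ℂ} {h : ℝ} (hh : 0 < h)
    (hper : Periodic (g ∘ ofComplex) h) (hhol : MDiff g) (hzero : IsZeroAtImInfty g) :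
    ∃ Φ : ℂ → ℂ, DifferentiableOn ℂ Φ (ball 0 1) ∧
      IsPrimitive g (fun τ => Φ (Periodic.qParam h τ)) := by
  have hb : IsBoundedAtImInfty g := hzero.isBoundedAtImInfty
  have hφ := differentiableOn_cuspFunction_ball hh hper hhol hb
  have h0 : UpperHalfPlane.cuspFunction h g 0 = 0 := hzero.cuspFunction_apply_zero hh
  set φ := UpperHalfPlane.cuspFunction h g with hφdef
  have hψ : DifferentiableOn ℂ (dslope φ 0) (ball 0 1) :=
    (Complex.differentiableOn_dslope (ball_mem_nhds 0 one_pos)).mpr hφ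
  obtain ⟨P, hP⟩ := hψ.isExactOn_ball
  refine ⟨fun q => (h : ℂ) / (2 * π * Complex.I) * P q, fun q hq =>
    ((hP q hq).differentiableAt.const_mul _).differentiableWithinAt, fun τ => ?_⟩
  set q := Periodic.qParam h (τ : ℂ) with hqdef
  have hq : q ∈ ball (0 : ℂ) 1 := by
    simpa using Periodic.norm_qParam_lt_one hh τ.im_pos
  have hqd : HasDerivAt (Periodic.qParam h) (q * (2 * π * Complex.I / h)) τ := by
    have h' := (((hasDerivAt_id (τ : ℂ)).const_mul (2 * π * Complex.I)).div_const (h : ℂ)).cexp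
    simp only [id_eq, mul_one] at h'
    exact h' 
  have hcomp := ((hP q hq).comp (τ : ℂ) hqd).const_mul ((h : ℂ) / (2 * π * Complex.I))
  have hval : g τ = q * dslope φ 0 q := by
    rw [← eq_cuspFunction τ hh.ne' hper, dslope_of_ne _ (Periodic.qParam_ne_zero _),
      slope_def_field]
    rw [← hφdef, h0, sub_zero, sub_zero, mul_div_cancel₀]
    exact Periodic.qParam_ne_zero _
  refine HasDerivAt.congr_deriv (hcomp.congr_of_eventuallyEq ?_) ?_
  · filter_upwards [isOpen_upperHalfPlaneSet.mem_nhds τ.im_pos] with z hz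
    simp [ofComplex_apply_of_im_pos hz]
  · rw [hval]
    have : (h : ℂ) ≠ 0 := by exact_mod_cast hh.ne'
    field_simp [Complex.I_ne_zero, Real.pi_ne_zero]

section Slashed

variable {N : ℕ} [NeZero N]

theorem natCast_pos : (0 : ℝ) < (N : ℝ) := by exact_mod_cast (NeZero.pos N)

omit [NeZero N] in
/-- Every conjugate of `T ^ N` in `SL(2, ℤ)` lies in `Γ₀(N)`. -/
theorem conj_T_pow_mem_Gamma0 (δ : SL(2, ℤ)) :
    δ * ModularGroup.T ^ (N : ℤ) * δ⁻¹ ∈ Gamma0 N := by
  have hT : ModularGroup.T ^ (N : ℤ) ∈ Gamma N := by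
    simpa using ModularGroup_T_pow_mem_Gamma (N : ℤ) N dvd_rfl
  have h := Gamma_mem.mp ((Gamma_normal N).conj_mem _ hT δ)
  exact Gamma0_mem.mpr h.2.2.1

omit [NeZero N] in
/-- Slashes of a cusp form on `Γ` are `N`-periodic if all conjugates of `T ^ N` lie in `Γ`. -/
theorem slash_periodic {Γ : Subgroup SL(2, ℤ)}
    (hT : ∀ δ, δ * ModularGroup.T ^ (N : ℤ) * δ⁻¹ ∈ Γ) (f : CuspForm Γ 2) (δ : SL(2, ℤ)) :
    Periodic ((⇑f ∣[(2 : ℤ)] δ) ∘ ofComplex) (N : ℝ) := by
  set g := ⇑f ∣[(2 : ℤ)] δ with hg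
  have hinv : g ∣[(2 : ℤ)] (ModularGroup.T ^ (N : ℤ)) = g := by
    rw [hg, ← SlashAction.slash_mul,
      show δ * ModularGroup.T ^ (N : ℤ) = (δ * ModularGroup.T ^ (N : ℤ) * δ⁻¹) * δ by group,
      SlashAction.slash_mul]
    congr 1
    exact SlashInvariantFormClass.slash_action_eq f _
      (Subgroup.mem_map_of_mem (mapGL ℝ) (hT δ))
  intro z
  by_cases hz : 0 < z.im
  · have hz' : 0 < (z + ((N : ℝ) : ℂ)).im := by simpa using hz
    simp only [comp_apply, ofComplex_apply_of_im_pos hz, ofComplex_apply_of_im_pos hz']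
    have h := congrFun hinv ⟨z, hz⟩
    rw [ModularForm.SL_slash_apply] at h
    rw [← h, modular_T_zpow_smul]
    have hd : ∀ w : ℂ,
        denom ((ModularGroup.T ^ (N : ℤ) : SL(2, ℤ)) : GL (Fin 2) ℝ) w = 1 := by
      intro w
      show (((ModularGroup.T ^ (N : ℤ) : SL(2, ℤ)) 1 0 : ℤ) : ℂ) * w +
        (((ModularGroup.T ^ (N : ℤ) : SL(2, ℤ)) 1 1 : ℤ) : ℂ) = 1
      rw [show (↑(ModularGroup.T ^ (N : ℤ)) : Matrix (Fin 2) (Fin 2) ℤ) = !![1, (N : ℤ); 0, 1] from
        ModularGroup.coe_T_zpow _]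
      simp
    rw [hd, one_zpow, mul_one]
    congr 1
    ext
    simp [coe_vadd, add_comm]
  · have hz' : ¬ 0 < (z + ((N : ℝ) : ℂ)).im := by simpa using hz
    simp only [comp_apply]
    rw [ofComplex_apply_of_im_nonpos (not_lt.mp hz), ofComplex_apply_of_im_nonpos (not_lt.mp hz')]

theorem slash_isZeroAtImInfty (f : CuspForm (Gamma0 N) 2) (δ : SL(2, ℤ)) :
    IsZeroAtImInfty (⇑f ∣[(2 : ℤ)] δ) :=
  CuspFormClass.zero_at_infty_slash f δ

omit [NeZero N] in
theorem slash_mdiff (f : CuspForm (Gamma0 N) 2) (δ : SL(2, ℤ)) :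
    MDiff (⇑f ∣[(2 : ℤ)] δ) := by
  rw [ModularForm.SL_slash]; exact (CuspFormClass.holo f).slash 2 _

/-- A primitive which is zero at `i∞` and has expansions at all cusps. -/
theorem exists_primitive (f : CuspForm (Gamma0 N) 2) :
    ∃ F : ℍ → ℂ, IsPrimitive ⇑f F ∧ HasCuspExpansion N F ∧ Tendsto F atImInfty (𝓝 0) := by
  have key : ∀ δ : SL(2, ℤ), ∃ Φ : ℂ → ℂ, DifferentiableOn ℂ Φ (ball 0 1) ∧
      IsPrimitive (⇑f ∣[(2 : ℤ)] δ) (fun τ => Φ (Periodic.qParam N τ)) := fun δ =>
    exists_qPrimitive natCast_pos (slash_periodic conj_T_pow_mem_Gamma0 f δ) (slash_mdiff f δ)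
      (slash_isZeroAtImInfty f δ)
  choose Φ hΦd hΦ using key
  set F : ℍ → ℂ := fun τ => Φ 1 (Periodic.qParam N τ) - Φ 1 0 with hFdef
  have hF : IsPrimitive ⇑f F := by
    have := hΦ 1
    rw [SlashAction.slash_one] at this
    exact this.sub_const _
  refine ⟨F, hF, fun δ => ?_, ?_⟩
  · have h1 := hF.comp_SL δ
    refine ⟨fun q => Φ δ q + (F (δ • UpperHalfPlane.I) - Φ δ (Periodic.qParam N UpperHalfPlane.I)),
      (hΦd δ).add_const _, fun w => ?_⟩
    have h2 := h1.sub_eq (hΦ δ) w UpperHalfPlane.I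
    linear_combination h2
  · have hc : ContinuousAt (Φ 1) 0 :=
      ((hΦd 1).differentiableAt (ball_mem_nhds 0 one_pos)).continuousAt
    have ht : Tendsto (fun τ : ℍ => Periodic.qParam N (τ : ℂ)) atImInfty (𝓝 0) :=
      tendsto_nhds_of_tendsto_nhdsWithin
        ((Periodic.qParam_tendsto natCast_pos).comp tendsto_coe_atImInfty)
    have := (hc.tendsto.comp ht).sub_const (Φ 1 0)
    simpa [hFdef] using this

/-- A function with cusp expansions has a limit at every cusp. -/
theorem HasCuspExpansion.tendsto (hF : HasCuspExpansion N F) (δ : SL(2, ℤ)) :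
    ∃ L : ℂ, Tendsto (fun w : ℍ => F (δ • w)) atImInfty (𝓝 L) := by
  obtain ⟨Φ, hd, hΦ⟩ := hF δ
  refine ⟨Φ 0, ?_⟩
  have hc : ContinuousAt Φ 0 := (hd.differentiableAt (ball_mem_nhds 0 one_pos)).continuousAt
  have ht : Tendsto (fun τ : ℍ => Periodic.qParam N (τ : ℂ)) atImInfty (𝓝 0) :=
    tendsto_nhds_of_tendsto_nhdsWithin
      ((Periodic.qParam_tendsto natCast_pos).comp tendsto_coe_atImInfty)
  exact (hc.tendsto.comp ht).congr fun w => (hΦ w).symm

omit [NeZero N] in
theorem IsPrimitive.isEquivariantPrimitive {f : CuspForm (Gamma0 N) 2} (hF : IsPrimitive ⇑f F) :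
    IsEquivariantPrimitive (Gamma0 N) F := by
  intro γ
  refine ⟨F ((γ : SL(2, ℤ)) • UpperHalfPlane.I) - F UpperHalfPlane.I, fun z => ?_⟩
  have h1 := hF.comp_SL (γ : SL(2, ℤ))
  have h2 : ⇑f ∣[(2 : ℤ)] (γ : SL(2, ℤ)) = ⇑f :=
    SlashInvariantFormClass.slash_action_eq f _ (Subgroup.mem_map_of_mem (mapGL ℝ) γ.2)
  rw [h2] at h1
  exact h1.sub_eq hF z UpperHalfPlane.I

theorem exists_hasEquivariantPrimitive (f : CuspForm (Gamma0 N) 2) :
    ∃ F : ℍ → ℂ, HasEquivariantPrimitive N f F ∧ HasCuspExpansion N F := by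
  obtain ⟨F, h1, h2, h3⟩ := exists_primitive f
  exact ⟨F, ⟨h1, h3, h1.isEquivariantPrimitive, h2.tendsto⟩, h2⟩

/-- The period map may be computed with any primitive. -/
theorem periodMap_eq {f : CuspForm (Gamma0 N) 2} (hF : IsPrimitive ⇑f F) (γ : Gamma0 N) (z : ℍ) :
    periodMap N f (Additive.ofMul γ) = F ((γ : SL(2, ℤ)) • z) - F z := by
  obtain ⟨F₁, hF₁, -⟩ := exists_hasEquivariantPrimitive f
  obtain ⟨F₀, h₀, heq⟩ := periodMap_def N f hF₁
  rw [heq, IsEquivariantPrimitive.periodHom_apply, ← h₀.2.2.1.sub_eq_period γ z]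
  have := IsPrimitive.sub_eq h₀.1 hF ((γ : SL(2, ℤ)) • z) z
  linear_combination this

/-- The period map as a linear map. -/
def periodMapLin (N : ℕ) [NeZero N] :
    CuspForm (Gamma0 N) 2 →ₗ[ℂ] (Additive (Gamma0 N) →+ ℂ) where
  toFun f := periodMap N f
  map_add' f g := by
    refine AddMonoidHom.ext fun γ => ?_
    obtain ⟨F, hF, -⟩ := exists_primitive f
    obtain ⟨G, hG, -⟩ := exists_primitive g
    have hFG : IsPrimitive ⇑(f + g) (F + G) := hF.add hG
    rw [AddMonoidHom.add_apply, ← ofMul_toMul γ, periodMap_eq hF _ I, periodMap_eq hG _ I,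
      periodMap_eq hFG _ I]
    simp only [Pi.add_apply]; ring
  map_smul' c f := by
    refine AddMonoidHom.ext fun γ => ?_
    obtain ⟨F, hF, -⟩ := exists_primitive f
    have hcF : IsPrimitive ⇑(c • f) (c • F) := hF.const_smul c
    rw [RingHom.id_apply, AddMonoidHom.smul_apply, ← ofMul_toMul γ, periodMap_eq hF _ I,
      periodMap_eq hcF _ I]
    simp only [Pi.smul_apply, smul_eq_mul]; ring

/-- `periodMapLin` is `periodMap`. -/
@[simp] theorem periodMapLin_apply (f : CuspForm (Gamma0 N) 2) :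
    periodMapLin N f = periodMap N f := rfl

theorem existsPeriodMapLinear (N : ℕ) [NeZero N] : ExistsPeriodMapLinear N :=
  ⟨periodMapLin N, periodMapLin_apply⟩

/-- The period map of pairs as a combination of periods and their images under the involution. -/
theorem periodHomPair_eq (N : ℕ) [NeZero N] :
    periodHomPair N = LinearMap.coprod
      ((LinearMap.id + charInvolution N ℂ ℂ) ∘ₗ periodMapLin N)
      ((LinearMap.id - charInvolution N ℂ ℂ) ∘ₗ periodMapLin N) := by
  obtain ⟨pml, hpml, heq⟩ := periodHomPair_def N (existsPeriodMapLinear N)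
  have : pml = periodMapLin N := LinearMap.ext fun f => by rw [hpml, periodMapLin_apply]
  rw [heq, this]

end Slashed

end Fermat.Agent.Periods
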