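import Mathlib.Analysis.Complex.AbsMax
import Mathlib.NumberTheory.Modular
import Fermat.Agent.Periods.Primitive

/-!
# Injectivity of periods

Injectivity of `(f, g) ↦ periods f + conj (periods g)` by the maximum modulus principle, and
parabolicity of periods.
-/

set_option autoImplicit false

noncomputable section

namespace Fermat.Agent.Periods

open UpperHalfPlane CongruenceSubgroup Filter Topology Metric Function
open Matrix.SpecialLinearGroup ModularCurve ModularCurve.Period
open scoped MatrixGroups Real ComplexConjugate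

variable {N : ℕ} [NeZero N]

theorem qParam_surj_disc {x : ℂ} (hx : x ≠ 0) (hx' : ‖x‖ < 1) :
    ∃ w : ℍ, Periodic.qParam N (w : ℂ) = x := by
  have hN : (0 : ℝ) < N := natCast_pos
  refine ⟨⟨Periodic.invQParam N x, ?_⟩, Periodic.qParam_right_inv hN.ne' hx⟩
  exact Periodic.im_invQParam_pos_of_norm_lt_one hN hx' hx

/-- Maximum principle: a holomorphic function on `ℍ` with expansions at all cusps whose real
part is invariant under a finite index subgroup `Γ` is constant up to `2πi ℤ`. -/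
theorem exp_eq_of_re_invariant {Γ : Subgroup SL(2, ℤ)} [Γ.FiniteIndex] {H : ℍ → ℂ}
    (hH : HasCuspExpansion N H)
    (hinv : ∀ (γ : Γ) (z : ℍ), (H ((γ : SL(2, ℤ)) • z)).re = (H z).re) (z z' : ℍ) :
    Complex.exp (H z) = Complex.exp (H z') := by
  classical
  choose Φ hd hΦ using fun q : SL(2, ℤ) ⧸ Γ => hH q.out⁻¹
  -- every value of `Re H` is a value of some `Re Φ q` on a fixed closed disc
  set r := Real.exp (-2 * π * (1/2) / (N : ℝ)) with hr
  have hr1 : r < 1 := by
    rw [hr, Real.exp_lt_one_iff]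
    have := Real.pi_pos
    exact div_neg_of_neg_of_pos (by linarith) natCast_pos
  have hcover : ∀ z : ℍ, ∃ q, ∃ x ∈ closedBall (0 : ℂ) r, (H z).re = (Φ q x).re := by
    intro z
    obtain ⟨g, hg⟩ := ModularGroup.exists_smul_mem_fd z
    obtain ⟨γ, hγ⟩ : ∃ γ : Γ, (QuotientGroup.mk g : SL(2, ℤ) ⧸ Γ).out = g * γ :=
      QuotientGroup.mk_out_eq_mul Γ g
    refine ⟨QuotientGroup.mk g, Periodic.qParam N ((g • z : ℍ) : ℂ), ?_, ?_⟩
    · have h3 := ModularGroup.three_le_four_mul_im_sq_of_mem_fd hg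
      have him : (1 : ℝ) / 2 ≤ ((g • z : ℍ) : ℂ).im := by
        have := (g • z).im_pos
        rw [UpperHalfPlane.coe_im]
        nlinarith
      rw [mem_closedBall, dist_zero_right, Periodic.norm_qParam, hr, Real.exp_le_exp]
      rw [div_le_div_iff_of_pos_right natCast_pos]
      nlinarith [Real.pi_pos]
    · rw [← hΦ, hγ, mul_inv_rev, mul_smul, inv_smul_smul]
      exact (hinv γ⁻¹ z).symm
  -- the maximum over the compact cover
  have hmax : ∀ q, ∃ x ∈ closedBall (0 : ℂ) r, IsMaxOn (fun y => (Φ q y).re) (closedBall 0 r) x :=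
    fun q => (isCompact_closedBall 0 r).exists_isMaxOn ⟨0, by simp [hr, (Real.exp_pos _).le]⟩
      (Complex.continuous_re.comp_continuousOn
        ((hd q).continuousOn.mono (closedBall_subset_ball hr1)))
  choose x hx hxmax using hmax
  obtain ⟨q₀, hq₀⟩ := Finite.exists_max fun q => (Φ q (x q)).re
  set M := (Φ q₀ (x q₀)).re with hM
  have hle : ∀ z, (H z).re ≤ M := by
    intro z
    obtain ⟨q, y, hy, hz⟩ := hcover z
    rw [hz]
    exact le_trans (hxmax q hy) (hq₀ q)
  have hball : ∀ y ∈ ball (0 : ℂ) 1, (Φ q₀ y).re ≤ M := by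
    intro y hy
    rcases eq_or_ne y 0 with rfl | hy0
    · exact hxmax q₀ (by simp [hr, (Real.exp_pos _).le])
    · obtain ⟨w, rfl⟩ := qParam_surj_disc (N := N) hy0 (by simpa using hy)
      rw [← hΦ]
      exact hle _
  have hconst := Complex.eqOn_of_isPreconnected_of_isMaxOn_norm (f := fun y => Complex.exp (Φ q₀ y))
    (convex_ball (0 : ℂ) 1).isPreconnected isOpen_ball (hd q₀).cexp
    (closedBall_subset_ball hr1 (hx q₀))
    (fun y hy => by
      simp only [Set.mem_ofPred_eq, comp_apply, Complex.norm_exp]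
      exact Real.exp_le_exp.mpr (hball y hy))
  have hw : ∀ z : ℍ, Complex.exp (H z) = Complex.exp (Φ q₀ (x q₀)) := by
    intro z
    have hmem : Periodic.qParam N ((q₀.out • z : ℍ) : ℂ) ∈ ball (0 : ℂ) 1 := by
      simpa using Periodic.norm_qParam_lt_one natCast_pos (q₀.out • z).im_pos
    have h := hconst hmem
    simpa [← hΦ] using h
  rw [hw z, hw z']

/-- A primitive of `f` whose exponential is constant forces `f = 0`. -/
theorem IsPrimitive.eq_zero_of_exp_const {f H : ℍ → ℂ} (hH : IsPrimitive f H)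
    (h : ∀ z z', Complex.exp (H z) = Complex.exp (H z')) : f = 0 := by
  funext τ
  have h1 := (hH τ).cexp
  have h2 : HasDerivAt (fun z => Complex.exp ((H ∘ ofComplex) z)) 0 (τ : ℂ) := by
    refine (hasDerivAt_const (τ : ℂ) (Complex.exp (H τ))).congr_of_eventuallyEq
      (Filter.Eventually.of_forall fun z => ?_)
    exact h _ _
  have := h1.unique h2
  simpa using this

omit [NeZero N] in
theorem hasCuspExpansion_lin {F G : ℍ → ℂ} (hF : HasCuspExpansion N F) (hG : HasCuspExpansion N G)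
    (a b : ℂ) : HasCuspExpansion N (fun z => a * F z + b * G z) := by
  intro δ
  obtain ⟨Φ, h1, h2⟩ := hF δ
  obtain ⟨Ψ, h3, h4⟩ := hG δ
  exact ⟨fun q => a * Φ q + b * Ψ q, (h1.const_mul a).add (h3.const_mul b),
    fun w => by simp only []; rw [← h2, ← h4]⟩

/-- Eichler–Shimura injectivity for functions: primitives whose increments under a finite index
subgroup `Γ` cancel against each other's conjugates belong to zero functions. -/
theorem eq_zero_of_primitive_add_conj {Γ : Subgroup SL(2, ℤ)} [Γ.FiniteIndex] {f g F G : ℍ → ℂ}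
    (hF : IsPrimitive f F) (hG : IsPrimitive g G) (hF' : HasCuspExpansion N F)
    (hG' : HasCuspExpansion N G)
    (h : ∀ (γ : Γ) (z : ℍ),
      F ((γ : SL(2, ℤ)) • z) - F z + conj (G ((γ : SL(2, ℤ)) • z) - G z) = 0) :
    f = 0 ∧ g = 0 := by
  have key : ∀ c : ℂ, c • f + conj c • g = 0 := by
    intro c
    have hH : IsPrimitive (c • f + conj c • g) (fun z => c * F z + conj c * G z) :=
      (hF.const_smul c).add (hG.const_smul (conj c))
    refine hH.eq_zero_of_exp_const
      (exp_eq_of_re_invariant (Γ := Γ) (hasCuspExpansion_lin hF' hG' _ _) fun γ z => ?_)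
    have h1 := h γ z
    have h2 : ((c * (F ((γ : SL(2, ℤ)) • z) - F z + conj (G ((γ : SL(2, ℤ)) • z) - G z)))).re =
        0 := by
      rw [h1, mul_zero, Complex.zero_re]
    simp [Complex.mul_re] at h2 ⊢
    linarith
  have k1 := key 1
  have k2 := key Complex.I
  constructor <;> funext τ
  · have a := congrFun k1 τ
    have b := congrFun k2 τ
    simp at a b
    show f τ = 0
    linear_combination (1/2 : ℂ) * a + (-Complex.I/2) * b +
      ((f τ - g τ)/2) * Complex.I_mul_I
  · have a := congrFun k1 τ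
    have b := congrFun k2 τ
    simp at a b
    show g τ = 0
    linear_combination (1/2 : ℂ) * a + (Complex.I/2) * b +
      (-(f τ - g τ)/2) * Complex.I_mul_I

/-- Eichler–Shimura injectivity, in the holomorphic ⊕ antiholomorphic form. -/
theorem periods_add_conj_injective {f g : CuspForm (Gamma0 N) 2}
    (h : ∀ γ : Gamma0 N,
      periodMap N f (Additive.ofMul γ) + conj (periodMap N g (Additive.ofMul γ)) = 0) :
    f = 0 ∧ g = 0 := by
  obtain ⟨F, hF, hF', -⟩ := exists_primitive f
  obtain ⟨G, hG, hG', -⟩ := exists_primitive g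
  obtain ⟨hf, hg⟩ := eq_zero_of_primitive_add_conj (Γ := Gamma0 N) hF hG hF' hG' fun γ z => by
    rw [← periodMap_eq hF γ z, ← periodMap_eq hG γ z]; exact h γ
  exact ⟨DFunLike.coe_injective hf, DFunLike.coe_injective hg⟩

/-- The period map on weight two cusp forms is injective. -/
theorem periodMapLin_injective : Function.Injective (periodMapLin N) := by
  rw [← LinearMap.ker_eq_bot, Submodule.eq_bot_iff]
  intro f hf
  refine (periods_add_conj_injective (f := f) (g := 0) fun γ => ?_).1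
  rw [LinearMap.mem_ker] at hf
  have h0 : periodMap N (0 : CuspForm (Gamma0 N) 2) = 0 := map_zero (periodMapLin N)
  rw [periodMapLin_apply] at hf
  simp [hf, h0]

omit [NeZero N] in
theorem eq_T_pow_of_upper (A : SL(2, ℤ)) (htr : A 0 0 + A 1 1 = 2) (hc : A 1 0 = 0) :
    A = ModularGroup.T ^ (A 0 1) := by
  have hdet : A 0 0 * A 1 1 - A 0 1 * A 1 0 = 1 := by
    rw [← Matrix.det_fin_two]; exact A.det_coe
  have h1 : (A 0 0 - 1) * (A 0 0 - 1) = 0 := by
    linear_combination (A 0 0) * htr - hdet - (A 0 1) * hc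
  have ha : A 0 0 = 1 := by
    have := mul_self_eq_zero.mp h1
    linarith
  ext i j
  fin_cases i <;> fin_cases j <;> simp [ModularGroup.coe_T_zpow, ha, hc]
  linarith

omit [NeZero N] in
/-- Elements of trace `2` are conjugate to powers of `T`. -/
theorem exists_conj_T (A : SL(2, ℤ)) (htr : A 0 0 + A 1 1 = 2) :
    ∃ (δ : SL(2, ℤ)) (m : ℤ), A = δ * ModularGroup.T ^ m * δ⁻¹ := by
  have hdet : A 0 0 * A 1 1 - A 0 1 * A 1 0 = 1 := by
    rw [← Matrix.det_fin_two]; exact A.det_coe
  by_cases hc : A 1 0 = 0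
  · exact ⟨1, A 0 1, by simpa using eq_T_pow_of_upper A htr hc⟩
  · set g : ℤ := (Int.gcd (A 0 0 - 1) (A 1 0) : ℤ) with hg
    have hg0 : g ≠ 0 := by
      simp only [hg, ne_eq, Int.natCast_eq_zero, Int.gcd_eq_zero_iff, not_and]
      exact fun _ => hc
    obtain ⟨x, hx⟩ : g ∣ A 0 0 - 1 := Int.gcd_dvd_left _ _
    obtain ⟨y, hy⟩ : g ∣ A 1 0 := Int.gcd_dvd_right _ _
    have hbez := Int.gcd_eq_gcd_ab (A 0 0 - 1) (A 1 0)
    set u := Int.gcdA (A 0 0 - 1) (A 1 0)
    set v := Int.gcdB (A 0 0 - 1) (A 1 0)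
    rw [← hg] at hbez
    have huv : x * u + y * v = 1 := by
      apply mul_left_cancel₀ hg0
      linear_combination -hbez - u * hx - v * hy
    have hfix0 : A 0 0 * x + A 0 1 * y = x := by
      apply mul_left_cancel₀ hg0
      linear_combination (-(A 0 0) + 1) * hx - (A 0 1) * hy + (A 0 0) * htr - hdet
    have hfix1 : A 1 0 * x + A 1 1 * y = y := by
      apply mul_left_cancel₀ hg0
      linear_combination -(A 1 0) * hx + (1 - A 1 1) * hy + (A 1 0) * htr
    let δ : SL(2, ℤ) := ⟨!![x, -v; y, u], by rw [Matrix.det_fin_two_of]; linear_combination huv⟩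
    set B := δ⁻¹ * A * δ with hB
    have hmat : (B : Matrix (Fin 2) (Fin 2) ℤ) = !![u, v; -y, x] * (A : Matrix _ _ ℤ) * !![x,
        -v; y, u] := by
      rw [hB, coe_mul, coe_mul, coe_inv, Matrix.adjugate_fin_two]
      simp [δ]
    have hB10 : B 1 0 = 0 := by
      rw [hmat]
      simp [Matrix.mul_apply, Matrix.vecMul, dotProduct, Fin.sum_univ_two]
      linear_combination (-y) * hfix0 + x * hfix1
    have hBtr : B 0 0 + B 1 1 = 2 := by
      rw [hmat]
      simp [Matrix.mul_apply, Matrix.vecMul, dotProduct, Fin.sum_univ_two]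
      linear_combination (A 0 0 + A 1 1) * huv + htr
    refine ⟨δ, B 0 1, ?_⟩
    rw [← eq_T_pow_of_upper B hBtr hB10, hB]
    group

theorem periodMap_eq_zero_of_eq_conj_T (f : CuspForm (Gamma0 N) 2) (γ : Gamma0 N)
    (δ : SL(2, ℤ)) (m : ℤ)
    (hγ : ∀ z : ℍ, (γ : SL(2, ℤ)) • z = (δ * ModularGroup.T ^ m * δ⁻¹) • z) :
    periodMap N f (Additive.ofMul γ) = 0 := by
  obtain ⟨F, hF, hF', -⟩ := exists_primitive f
  obtain ⟨L, hL⟩ := hF'.tendsto δ
  have ht : Tendsto (fun w : ℍ => (m : ℝ) +ᵥ w) atImInfty atImInfty := by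
    simp only [atImInfty, tendsto_comap_iff, comp_def, vadd_im]
    exact tendsto_comap
  have h1 : Tendsto (fun w : ℍ => F (δ • ((m : ℝ) +ᵥ w)) - F (δ • w)) atImInfty (𝓝 (L - L)) :=
    (hL.comp ht).sub hL
  have h2 : ∀ w : ℍ, F (δ • ((m : ℝ) +ᵥ w)) - F (δ • w) = periodMap N f (Additive.ofMul γ) := by
    intro w
    rw [periodMap_eq hF γ (δ • w), hγ, mul_smul, mul_smul, inv_smul_smul, modular_T_zpow_smul]
  simp only [h2, sub_self] at h1
  exact tendsto_nhds_unique tendsto_const_nhds h1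

/-- The periods of a cusp form are a parabolic homomorphism. -/
theorem periodMap_mem_parabolicHoms (f : CuspForm (Gamma0 N) 2) :
    periodMap N f ∈ parabolicHoms ℂ (Gamma0 N) ℂ := by
  intro γ hγ
  rw [Matrix.trace_fin_two] at hγ
  rcases sq_eq_sq_iff_eq_or_eq_neg.mp
    (show ((γ : SL(2, ℤ)) 0 0 + (γ : SL(2, ℤ)) 1 1) ^ 2 = (2 : ℤ) ^ 2 by rw [hγ]; norm_num)
      with h | h
  · obtain ⟨δ, m, he⟩ := exists_conj_T _ h
    exact periodMap_eq_zero_of_eq_conj_T f γ δ m fun z => by rw [he]
  · obtain ⟨δ, m, he⟩ := exists_conj_T (-(γ : SL(2, ℤ))) (by simp; linarith)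
    exact periodMap_eq_zero_of_eq_conj_T f γ δ m fun z => by
      rw [← he, ModularGroup.SL_neg_smul]

end Fermat.Agent.Periods
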