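import Mathlib.Analysis.Calculus.Deriv.Star
import Mathlib.LinearAlgebra.FiniteDimensional.Basic
import Mathlib.LinearAlgebra.Dimension.Constructions
import Fermat.Agent.Periods.Injective

/-!
# Conjugate forms and periods

The complex conjugate of a form, the involution on periods, and the injectivity of `periodHomPair`
(`periodHomPair_injective`, the first half of S21); Eichler–Shimura follows from an inequality of
the two dimensions (`periodHomPair_eichlerShimura_of_finrank`), proved in `HeckeDuality/Shimura`.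
-/

set_option autoImplicit false

noncomputable section

namespace Fermat.Agent.Periods

open UpperHalfPlane CongruenceSubgroup Filter Function
open Matrix.SpecialLinearGroup ModularCurve ModularCurve.Period
open scoped MatrixGroups ModularForm Pointwise ComplexConjugate

variable {N : ℕ}

/-- Conjugation by `J` is `jConjSL` on `SL(2, ℤ)`. -/
theorem J_mul_mapGL (g : SL(2, ℤ)) :
    UpperHalfPlane.J * mapGL ℝ g = mapGL ℝ (jConjSL g) * UpperHalfPlane.J := by
  ext i j
  fin_cases i <;> fin_cases j <;> simp [Matrix.mul_apply, Fin.sum_univ_two]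

theorem J_smul_SL_smul (g : SL(2, ℤ)) (z : ℍ) :
    UpperHalfPlane.J • (g • z) = jConjSL g • (UpperHalfPlane.J • z) := by
  show UpperHalfPlane.J • (mapGL ℝ g • z) = mapGL ℝ (jConjSL g) • (UpperHalfPlane.J • z)
  rw [← mul_smul, ← mul_smul, J_mul_mapGL]

/-- `J` is an involution. -/
theorem J_inv : UpperHalfPlane.J⁻¹ = UpperHalfPlane.J :=
  inv_eq_of_mul_eq_one_right (by rw [← sq, UpperHalfPlane.J_sq])

theorem conjAct_J_Gamma0 (N : ℕ) :
    (Gamma0 N : Subgroup (GL (Fin 2) ℝ)) =
      ConjAct.toConjAct UpperHalfPlane.J⁻¹ • (Gamma0 N : Subgroup (GL (Fin 2) ℝ)) := by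
  ext x
  rw [Subgroup.mem_pointwise_smul_iff_inv_smul_mem, J_inv, ← map_inv, J_inv,
    ConjAct.toConjAct_smul, J_inv]
  constructor
  · rintro ⟨g, hg, rfl⟩
    refine ⟨jConjSL g, jConjSL_mem_Gamma0 hg, ?_⟩
    rw [J_mul_mapGL, mul_assoc, ← sq, UpperHalfPlane.J_sq, mul_one]
  · rintro ⟨g, hg, hx⟩
    refine ⟨jConjSL g, jConjSL_mem_Gamma0 hg, ?_⟩
    have := congrArg (fun t => UpperHalfPlane.J * t * UpperHalfPlane.J) hx
    simp only [J_mul_mapGL, mul_assoc, ← sq, UpperHalfPlane.J_sq, mul_one] at this
    rw [this, ← mul_assoc UpperHalfPlane.J UpperHalfPlane.J x, ← sq, UpperHalfPlane.J_sq, one_mul]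

/-- The conjugate form `τ ↦ conj (f (-conj τ))`. -/
def formConj (f : CuspForm (Gamma0 N) 2) : CuspForm (Gamma0 N) 2 :=
  (CuspForm.translate f UpperHalfPlane.J).copy _ rfl (conjAct_J_Gamma0 N)

theorem formConj_apply (f : CuspForm (Gamma0 N) 2) (τ : ℍ) :
    formConj f τ = conj (f (UpperHalfPlane.J • τ)) := by
  show (⇑f ∣[(2 : ℤ)] UpperHalfPlane.J) τ = _
  simp [ModularForm.slash_apply, UpperHalfPlane.σ, denom, show ¬(1 : ℝ) < 0 by simp]

variable [NeZero N]

omit [NeZero N] in
theorem isPrimitive_formConj {f : CuspForm (Gamma0 N) 2} {F : ℍ → ℂ} (hF : IsPrimitive ⇑f F) :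
    IsPrimitive ⇑(formConj f) (fun τ => -conj (F (UpperHalfPlane.J • τ))) := by
  intro τ
  have hz : ((UpperHalfPlane.J • τ : ℍ) : ℂ) = -conj (τ : ℂ) := coe_J_smul τ
  have h1 : HasDerivAt (F ∘ ofComplex) (f (UpperHalfPlane.J • τ)) (-conj (τ : ℂ)) := by
    rw [← hz]; exact hF _
  have h2 := ((h1.comp (conj (τ : ℂ)) (hasDerivAt_neg _)).conj_conj).neg
  rw [Complex.conj_conj] at h2
  refine (h2.congr_of_eventuallyEq ?_).congr_deriv ?_
  · filter_upwards [isOpen_upperHalfPlaneSet.mem_nhds τ.im_pos] with z hz'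
    have hneg : 0 < (-conj z).im := by simpa using hz'
    simp only [comp_apply, Pi.neg_apply, neg_inj]
    congr 2
    ext
    rw [coe_J_smul, ofComplex_apply_of_im_pos hz', ofComplex_apply_of_im_pos hneg]
  · rw [formConj_apply]
    simp

theorem periodMap_formConj (f : CuspForm (Gamma0 N) 2) (γ : Gamma0 N) :
    periodMap N (formConj f) (Additive.ofMul γ) =
      -conj (periodMap N f (Additive.ofMul (jConjGamma0 N γ))) := by
  obtain ⟨F, hF, -⟩ := exists_primitive f
  rw [periodMap_eq (isPrimitive_formConj hF) γ UpperHalfPlane.I,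
    periodMap_eq hF (jConjGamma0 N γ) (UpperHalfPlane.J • UpperHalfPlane.I), J_smul_SL_smul,
    jConjGamma0_coe]
  simp only [map_sub]
  ring

/-- Periods of `f` satisfying `(1 + C) (periods f) = 0` or `(1 - C) (periods f) = 0` force
`f = 0`. -/
theorem eq_zero_of_charInvolution_eq (f : CuspForm (Gamma0 N) 2) {ε : ℂ} (hε : ε = 1 ∨ ε = -1)
    (h : charInvolution N ℂ ℂ (periodMapLin N f) = ε • periodMapLin N f) : f = 0 := by
  refine (periods_add_conj_injective (f := f) (g := ε • formConj f) fun γ => ?_).1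
  have h1 := DFunLike.congr_fun h (Additive.ofMul γ)
  simp only [charInvolution_apply, toMul_ofMul, periodMapLin_apply, AddMonoidHom.smul_apply,
    smul_eq_mul] at h1
  have h2 : periodMap N (ε • formConj f) (Additive.ofMul γ)
      = ε * periodMap N (formConj f) (Additive.ofMul γ) := by
    show periodMapLin N (ε • formConj f) (Additive.ofMul γ) = _
    rw [map_smul]; rfl
  rw [h2, periodMap_formConj, h1]
  rcases hε with rfl | rfl <;> simp

/-- **Eichler–Shimura**: the period map on pairs of cusp forms is injective. -/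
theorem periodHomPair_injective (N : ℕ) [NeZero N] : Function.Injective (periodHomPair N) := by
  rw [← LinearMap.ker_eq_bot, Submodule.eq_bot_iff]
  rintro ⟨f, g⟩ h
  rw [LinearMap.mem_ker, periodHomPair_eq] at h
  simp only [LinearMap.coprod_apply, LinearMap.comp_apply, LinearMap.add_apply, LinearMap.sub_apply,
    LinearMap.id_apply] at h
  have h' := congrArg (charInvolution N ℂ ℂ) h
  simp only [map_add, map_sub, map_zero, charInvolution_charInvolution] at h'
  set a := periodMapLin N f
  set b := periodMapLin N g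
  set ca := charInvolution N ℂ ℂ a with hca
  set cb := charInvolution N ℂ ℂ b with hcb
  have hf : f = 0 := eq_zero_of_charInvolution_eq f (ε := -1) (Or.inr rfl) <| by
    refine AddMonoidHom.ext fun x => ?_
    have u := DFunLike.congr_fun h x
    have v := DFunLike.congr_fun h' x
    simp only [AddMonoidHom.add_apply, AddMonoidHom.sub_apply, AddMonoidHom.zero_apply] at u v
    simp only [AddMonoidHom.smul_apply, smul_eq_mul]
    linear_combination (1/2 : ℂ) * u + (1/2 : ℂ) * v
  have hg : g = 0 := eq_zero_of_charInvolution_eq g (ε := 1) (Or.inl rfl) <| by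
    refine AddMonoidHom.ext fun x => ?_
    have u := DFunLike.congr_fun h x
    have v := DFunLike.congr_fun h' x
    simp only [AddMonoidHom.add_apply, AddMonoidHom.sub_apply, AddMonoidHom.zero_apply] at u v
    simp only [AddMonoidHom.smul_apply, smul_eq_mul]
    linear_combination -(1/2 : ℂ) * u + (1/2 : ℂ) * v
  rw [hf, hg]; rfl

/-- The periods of pairs of forms are parabolic homomorphisms. -/
theorem range_periodHomPair_le (N : ℕ) [NeZero N] :
    LinearMap.range (periodHomPair N) ≤ parabolicHoms ℂ (Gamma0 N) ℂ := by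
  rintro _ ⟨⟨f, g⟩, rfl⟩
  rw [periodHomPair_eq]
  simp only [LinearMap.coprod_apply, LinearMap.comp_apply, LinearMap.add_apply, LinearMap.sub_apply,
    LinearMap.id_apply, periodMapLin_apply]
  have hf := periodMap_mem_parabolicHoms f
  have hg := periodMap_mem_parabolicHoms g
  exact add_mem (add_mem hf (charInvolution_mem_parabolicHoms N ℂ ℂ hf))
    (sub_mem hg (charInvolution_mem_parabolicHoms N ℂ ℂ hg))

/-- Eichler–Shimura, given the two dimensions. -/
theorem periodHomPair_eichlerShimura_of_finrank (N : ℕ) [NeZero N]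
    [FiniteDimensional ℂ (parabolicHoms ℂ (Gamma0 N) ℂ)]
    (h : Module.finrank ℂ (parabolicHoms ℂ (Gamma0 N) ℂ)
      ≤ 2 * Module.finrank ℂ (CuspForm (Gamma0 N) 2)) :
    Function.Injective (periodHomPair N)
      ∧ LinearMap.range (periodHomPair N) = parabolicHoms ℂ (Gamma0 N) ℂ := by
  have hinj := periodHomPair_injective N
  have hle := range_periodHomPair_le N
  have hfd : FiniteDimensional ℂ (CuspForm (Gamma0 N) 2) :=
    FiniteDimensional.of_injective
      ((periodMapLin N).codRestrict _ periodMap_mem_parabolicHoms)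
      fun a b hab => periodMapLin_injective (Subtype.ext_iff.mp hab)
  refine ⟨hinj, Submodule.eq_of_le_of_finrank_le hle ?_⟩
  rw [LinearMap.finrank_range_of_inj hinj, Module.finrank_prod]
  omega

end Fermat.Agent.Periods
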