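import Fermat.Prelude.Sol.S_ModularForm_heckeT_slash_eq_self_of_mem_Gamma0
import Fermat.Prelude.Def_ModularForm_HeckeOperatorForms
import Fermat.Agent.Periods.HeckeSystem

/-!
# Hecke operators on `Hom(Γ₀(N), A)`

The operators `T_p` and `U_q` on homomorphisms from `Γ₀(N)`, and their compatibility with periods
and with the involution.
-/

set_option autoImplicit false

noncomputable section

namespace Fermat.Agent.Periods

open UpperHalfPlane CongruenceSubgroup
open Matrix.SpecialLinearGroup ModularCurve ModularCurve.Period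
open P2MW.S_ModularForm_heckeT_slash_eq_self_of_mem_Gamma0.ModularForm.HeckeSlashInvariance
open scoped MatrixGroups ModularForm

variable {N : ℕ}

theorem heckeMatrix_eq_mul {q : ℕ} (hq : q ≠ 0) {i j : ℕ} {g : SL(2, ℤ)}
    (h : ModularForm.heckeMatrix q i = mapGL ℝ g * ModularForm.heckeMatrix q j) :
    (i : ZMod q) = (j : ZMod q) := by
  have e00 := congrArg (fun x : GL (Fin 2) ℝ => x 0 0) h
  have e01 := congrArg (fun x : GL (Fin 2) ℝ => x 0 1) h
  simp [hq, Matrix.mul_apply, Fin.sum_univ_two] at e00 e01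
  rw [← e00, one_mul] at e01
  have e : ((i : ℤ) : ℝ) = ((j + g 0 1 * q : ℤ) : ℝ) := by push_cast; exact_mod_cast e01
  have := congrArg (Int.cast : ℤ → ZMod q) (Int.cast_injective e)
  simpa using this

theorem heckeMatrix_ne_diag {q : ℕ} (hq : 1 < q) (i : ℕ) (g : SL(2, ℤ)) :
    ModularForm.heckeMatrix q i ≠ mapGL ℝ g * ModularForm.heckeDiagMatrix q ∧
    ModularForm.heckeDiagMatrix q ≠ mapGL ℝ g * ModularForm.heckeMatrix q i := by
  have hq0 : q ≠ 0 := by omega
  constructor
  · intro h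
    have e := congrArg (fun x : GL (Fin 2) ℝ => x 0 0) h
    simp [hq0, Matrix.mul_apply, Fin.sum_univ_two] at e
    have e' : ((1 : ℤ) : ℝ) = ((g 0 0 * q : ℤ) : ℝ) := by push_cast; exact e
    have : (q : ℤ) ∣ 1 := ⟨g 0 0, by linear_combination (Int.cast_injective e')⟩
    have := Int.le_of_dvd one_pos this
    omega
  · intro h
    have e := congrArg (fun x : GL (Fin 2) ℝ => x 1 1) h
    have e' := congrArg (fun x : GL (Fin 2) ℝ => x 1 0) h
    simp [hq0, Matrix.mul_apply, Fin.sum_univ_two] at e e'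
    rw [← e', zero_mul, zero_add] at e
    have e'' : ((1 : ℤ) : ℝ) = ((g 1 1 * q : ℤ) : ℝ) := by push_cast; exact e
    have : (q : ℤ) ∣ 1 := ⟨g 1 1, by linear_combination (Int.cast_injective e'')⟩
    have := Int.le_of_dvd one_pos this
    omega

variable [NeZero N]

section U

variable {q : ℕ}

omit [NeZero N] in
theorem exists_heckeU_cocycle (hq : q ≠ 0) (hqN : q ∣ N) (γ : Gamma0 N) (x : Fin q) :
    ∃ (c : Gamma0 N) (y : Fin q), ModularForm.heckeMatrix q x * mapGL ℝ (γ : SL(2, ℤ))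
      = mapGL ℝ (c : SL(2, ℤ)) * ModularForm.heckeMatrix q y := by
  have : NeZero q := ⟨hq⟩
  have hcN := Gamma0_mem.mp γ.2
  have hc : (q : ℤ) ∣ (γ : SL(2, ℤ)) 1 0 :=
    (Int.natCast_dvd_natCast.mpr hqN).trans ((ZMod.intCast_zmod_eq_zero_iff_dvd _ _).mp hcN)
  obtain ⟨g', hg', hmul⟩ := heckeMatrix_mul_of_dvd (γ : SL(2, ℤ)) hc ((x : ℕ) : ZMod q)
  rw [ZMod.val_cast_of_lt x.isLt] at hmul
  refine ⟨⟨g', ?_⟩, ⟨_, ZMod.val_lt _⟩, hmul⟩
  rw [Gamma0_mem, hg']
  push_cast
  rw [hcN, mul_zero]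

/-- The double coset system of `U_q`, `q ∣ N`. -/
def systemU (hq : q ≠ 0) (hqN : q ∣ N) : HeckeSystem (Gamma0 N) (Gamma0 N) (Fin q) where
  rep x := ModularForm.heckeMatrix q x
  det_pos x := ModularForm.det_heckeMatrix_pos q x
  perm γ x := (exists_heckeU_cocycle hq hqN γ x).choose_spec.choose
  cocycle γ x := (exists_heckeU_cocycle hq hqN γ x).choose
  spec γ x := (exists_heckeU_cocycle hq hqN γ x).choose_spec.choose_spec
  unique i j γ h := Fin.ext (by
    have := heckeMatrix_eq_mul hq h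
    rw [ZMod.natCast_eq_natCast_iff', Nat.mod_eq_of_lt i.isLt, Nat.mod_eq_of_lt j.isLt] at this
    exact this)

/-- `U_q` on `Hom(Γ₀(N), A)`. -/
def homU {A : Type*} [AddCommGroup A] (hq : q ≠ 0) (hqN : q ∣ N)
    (R : Type*) [Semiring R] [Module R A] :
    (Additive (Gamma0 N) →+ A) →ₗ[R] (Additive (Gamma0 N) →+ A) :=
  (systemU hq hqN).op R

/-- The period map intertwines `U_q` on forms with `U_q` on homomorphisms. -/
theorem periodMap_heckeULin (hq : q ≠ 0) (hqN : q ∣ N) (f : CuspForm (Gamma0 N) 2) :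
    periodMap N (CuspForm.heckeULin 2 hqN f) = homU hq hqN ℂ (periodMap N f) := by
  refine periodMap_heckeSystem (systemU hq hqN) f _ ?_
  rw [CuspForm.coe_heckeULin_apply, ModularForm.heckeU_def]
  exact (Fin.sum_univ_eq_sum_range (fun j => ⇑f ∣[(2 : ℤ)] ModularForm.heckeMatrix q j) q).symm

omit [NeZero N] in
/-- `U_q` commutes with a change of coefficient group. -/
theorem homU_comp {A B : Type*} [AddCommGroup A] [AddCommGroup B] (hq : q ≠ 0) (hqN : q ∣ N)
    (R S : Type*) [Semiring R] [Module R A] [Semiring S] [Module S B] (g : A →+ B)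
    (φ : Additive (Gamma0 N) →+ A) : homU hq hqN S (g.comp φ) = g.comp (homU hq hqN R φ) :=
  (systemU hq hqN).apply_comp g φ

omit [NeZero N] in
theorem exists_J_heckeMatrix (hq : q ≠ 0) (i : Fin q) :
    ∃ (u : Gamma0 N) (j : Fin q), UpperHalfPlane.J * ModularForm.heckeMatrix q i * UpperHalfPlane.J
        = mapGL ℝ (u : SL(2, ℤ)) * ModularForm.heckeMatrix q j := by
  obtain ⟨j, k, hjk⟩ : ∃ (j : Fin q) (k : ℤ), -((i : ℕ) : ℤ) = (j : ℕ) + k * q := by
    refine ⟨⟨((-((i : ℕ) : ℤ)) % q).toNat, ?_⟩, (-((i : ℕ) : ℤ)) / q, ?_⟩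
    · have := Int.emod_lt_of_pos (-((i : ℕ) : ℤ)) (b := (q : ℤ)) (by omega)
      omega
    · have h1 := Int.emod_nonneg (-((i : ℕ) : ℤ)) (b := (q : ℤ)) (by omega)
      have h2 := Int.emod_add_mul_ediv (-((i : ℕ) : ℤ)) (q : ℤ)
      simp only [Int.toNat_of_nonneg h1]
      linarith [h2]
  refine ⟨⟨ModularGroup.T ^ k, ?_⟩, j, ?_⟩
  · simp [ModularGroup.coe_T_zpow]
  · ext a b
    fin_cases a <;> fin_cases b <;>
      simp [hq, Matrix.mul_apply, Fin.sum_univ_two, ModularGroup.coe_T_zpow, -map_zpow]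
    have := congrArg (Int.cast : ℤ → ℝ) hjk
    push_cast at this
    linarith

omit [NeZero N] in
/-- `U_q` commutes with the involution on homomorphisms. -/
theorem charInvolution_homU {A : Type*} [AddCommGroup A] (hq : q ≠ 0) (hqN : q ∣ N)
    (R : Type*) [Semiring R] [Module R A] (φ : Additive (Gamma0 N) →+ A) :
    homU hq hqN R (charInvolution N R A φ) = charInvolution N R A (homU hq hqN R φ) := by
  choose u τ hu using exists_J_heckeMatrix (N := N) hq
  refine charInvolution_heckeSystem (systemU hq hqN) τ ?_ u hu φ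
  refine (Finite.injective_iff_bijective).mp fun i j hij => ?_
  have hi := hu i
  have hj := hu j
  rw [← hij] at hj
  refine (systemU hq hqN).unique i j (jConjGamma0 N (u i * (u j)⁻¹)) ?_
  have e : mapGL ℝ (u i : SL(2, ℤ)) * (mapGL ℝ (u j : SL(2, ℤ)))⁻¹ *
      (UpperHalfPlane.J * ModularForm.heckeMatrix q j * UpperHalfPlane.J) =
      UpperHalfPlane.J * ModularForm.heckeMatrix q i * UpperHalfPlane.J := by
    rw [hi, hj]; group
  have e' := congrArg (fun t => UpperHalfPlane.J * t * UpperHalfPlane.J) e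
  have hJ : ∀ t : GL (Fin 2) ℝ, UpperHalfPlane.J * (UpperHalfPlane.J * t) = t := fun t => by
    rw [← mul_assoc, ← sq, UpperHalfPlane.J_sq, one_mul]
  simp only [← map_inv, ← map_mul, mul_assoc, hJ, ← sq, UpperHalfPlane.J_sq, mul_one] at e'
  rw [← mul_assoc, J_mul_mapGL, mul_assoc, hJ] at e'
  exact e'.symm

end U

section T

variable {p : ℕ}

omit [NeZero N] in
theorem exists_heckeT_cocycle (hp : p.Prime) (hpN : ¬ p ∣ N) (γ : Gamma0 N)
    (x : Option (ZMod p)) :
    ∃ (c : Gamma0 N) (y : Option (ZMod p)), heckeRep p x * mapGL ℝ (γ : SL(2, ℤ))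
      = mapGL ℝ (c : SL(2, ℤ)) * heckeRep p y := by
  have : Fact p.Prime := ⟨hp⟩
  obtain ⟨g', hg', hmul⟩ := heckeRep_mul hpN (γ : SL(2, ℤ))
    ((ZMod.intCast_zmod_eq_zero_iff_dvd _ _).mp (Gamma0_mem.mp γ.2)) x
  exact ⟨⟨g', Gamma0_mem.mpr ((ZMod.intCast_zmod_eq_zero_iff_dvd _ _).mpr hg')⟩, _, hmul⟩

/-- The double coset system of `T_p`, `p ∤ N`. -/
def systemT (hp : p.Prime) (hpN : ¬ p ∣ N) : HeckeSystem (Gamma0 N) (Gamma0 N)
    (Option (ZMod p)) where
  rep x := heckeRep p x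
  det_pos x := by
    cases x
    · exact ModularForm.det_heckeDiagMatrix_pos p
    · exact ModularForm.det_heckeMatrix_pos p _
  perm γ x := (exists_heckeT_cocycle hp hpN γ x).choose_spec.choose
  cocycle γ x := (exists_heckeT_cocycle hp hpN γ x).choose
  spec γ x := (exists_heckeT_cocycle hp hpN γ x).choose_spec.choose_spec
  unique i j γ h := by
    have : NeZero p := ⟨hp.ne_zero⟩
    cases i <;> cases j
    · rfl
    · exact absurd h (heckeMatrix_ne_diag hp.one_lt _ _).2
    · exact absurd h (heckeMatrix_ne_diag hp.one_lt _ _).1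
    · have := heckeMatrix_eq_mul hp.ne_zero h
      simp only [ZMod.natCast_zmod_val] at this
      rw [this]

/-- `T_p` on `Hom(Γ₀(N), A)`. -/
def homT {A : Type*} [AddCommGroup A] (hp : p.Prime) (hpN : ¬ p ∣ N)
    (R : Type*) [Semiring R] [Module R A] :
    (Additive (Gamma0 N) →+ A) →ₗ[R] (Additive (Gamma0 N) →+ A) :=
  haveI : NeZero p := ⟨hp.ne_zero⟩
  (systemT hp hpN).op R

/-- The period map intertwines `T_p` on forms with `T_p` on homomorphisms. -/
theorem periodMap_heckeTLin (hp : p.Prime) (hpN : ¬ p ∣ N) (f : CuspForm (Gamma0 N) 2) :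
    periodMap N (CuspForm.heckeTLin 2 hp hpN f) = homT hp hpN ℂ (periodMap N f) := by
  have : Fact p.Prime := ⟨hp⟩
  refine periodMap_heckeSystem (systemT hp hpN) f _ ?_
  rw [CuspForm.coe_heckeTLin_apply]
  exact heckeT_eq_sum_onePoint 2 ⇑f

omit [NeZero N] in
/-- `T_p` preserves parabolic homomorphisms. -/
theorem homT_mem_parabolicHoms {A : Type*} [AddCommGroup A] (hp : p.Prime) (hpN : ¬ p ∣ N)
    (R : Type*) [Semiring R] [Module R A] {φ : Additive (Gamma0 N) →+ A}
    (hφ : φ ∈ parabolicHoms R (Gamma0 N) A) : homT hp hpN R φ ∈ parabolicHoms R (Gamma0 N) A :=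
  haveI : NeZero p := ⟨hp.ne_zero⟩
  (systemT hp hpN).op_mem_parabolicHoms hφ

omit [NeZero N] in
/-- `T_p` commutes with a change of coefficient group. -/
theorem homT_comp {A B : Type*} [AddCommGroup A] [AddCommGroup B] (hp : p.Prime) (hpN : ¬ p ∣ N)
    (R S : Type*) [Semiring R] [Module R A] [Semiring S] [Module S B] (g : A →+ B)
    (φ : Additive (Gamma0 N) →+ A) : homT hp hpN S (g.comp φ) = g.comp (homT hp hpN R φ) :=
  haveI : NeZero p := ⟨hp.ne_zero⟩
  (systemT hp hpN).apply_comp g φ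

omit [NeZero N] in
theorem exists_J_heckeRep (hp : p.Prime) (i : Option (ZMod p)) :
    ∃ (u : Gamma0 N) (j : Option (ZMod p)), UpperHalfPlane.J * heckeRep p i * UpperHalfPlane.J
        = mapGL ℝ (u : SL(2, ℤ)) * heckeRep p j := by
  have : NeZero p := ⟨hp.ne_zero⟩
  cases i with
  | none =>
    refine ⟨1, none, ?_⟩
    rw [OneMemClass.coe_one, map_one, one_mul]
    show UpperHalfPlane.J * ModularForm.heckeDiagMatrix p * UpperHalfPlane.J
      = ModularForm.heckeDiagMatrix p
    ext a b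
    fin_cases a <;> fin_cases b <;> simp [hp.ne_zero, Matrix.mul_apply, Fin.sum_univ_two]
  | some x =>
    obtain ⟨u, j, hu⟩ := exists_J_heckeMatrix (N := N) hp.ne_zero ⟨x.val, x.val_lt⟩
    refine ⟨u, some ((j : ℕ) : ZMod p), ?_⟩
    show UpperHalfPlane.J * ModularForm.heckeMatrix p x.val * UpperHalfPlane.J = _ *
      ModularForm.heckeMatrix p ((j : ℕ) : ZMod p).val
    rw [ZMod.val_cast_of_lt j.isLt]
    exact hu

omit [NeZero N] in
/-- `T_p` commutes with the involution on homomorphisms. -/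
theorem charInvolution_homT {A : Type*} [AddCommGroup A] (hp : p.Prime) (hpN : ¬ p ∣ N)
    (R : Type*) [Semiring R] [Module R A] (φ : Additive (Gamma0 N) →+ A) :
    homT hp hpN R (charInvolution N R A φ) = charInvolution N R A (homT hp hpN R φ) := by
  have : NeZero p := ⟨hp.ne_zero⟩
  choose u τ hu using exists_J_heckeRep (N := N) hp
  refine charInvolution_heckeSystem (systemT hp hpN) τ ?_ u hu φ
  refine (Finite.injective_iff_bijective).mp fun i j hij => ?_
  have hi := hu i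
  have hj := hu j
  rw [← hij] at hj
  refine (systemT hp hpN).unique i j (jConjGamma0 N (u i * (u j)⁻¹)) ?_
  have e : mapGL ℝ (u i : SL(2, ℤ)) * (mapGL ℝ (u j : SL(2, ℤ)))⁻¹ *
      (UpperHalfPlane.J * heckeRep p j * UpperHalfPlane.J) =
      UpperHalfPlane.J * heckeRep p i * UpperHalfPlane.J := by
    rw [hi, hj]; group
  have e' := congrArg (fun t => UpperHalfPlane.J * t * UpperHalfPlane.J) e
  have hJ : ∀ t : GL (Fin 2) ℝ, UpperHalfPlane.J * (UpperHalfPlane.J * t) = t := fun t => by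
    rw [← mul_assoc, ← sq, UpperHalfPlane.J_sq, one_mul]
  simp only [← map_inv, ← map_mul, mul_assoc, hJ, ← sq, UpperHalfPlane.J_sq, mul_one] at e'
  rw [← mul_assoc, J_mul_mapGL, mul_assoc, hJ] at e'
  exact e'.symm

end T

end Fermat.Agent.Periods
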